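/-
Program M (S16), chapter B, brick (B2) (helper5): the Shimura character.

`dChar N : Γ₀(N) →* (ZMod N)ˣ`, `γ ↦ d(γ) mod N`, and its behaviour under the double coset operators
`tdcMul` / `tdcAdd` of `DoubleCoset27` (level `N`, Hecke prime `l ∤ N`):

* `dChar_cocG` : `u_i · d(γ) = d(coc γ i) · u_{perm γ i}`, `u_i` = lower right entry of `β_i`;
* `tdcMul_dChar` : `tdcMul hlN (dChar N) = (dChar N) ^ (l + 1)`;
* `tdcAdd_comp_dChar` : for every additive `ω : Additive (ZMod N)ˣ →+ A`,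
  `tdcAdd hlN (ω ∘ dChar) = (l + 1) • (ω ∘ dChar)`  (**Eisenstein eigenvalue `1 + l`**);
* `dChar_of_trace_sq_eq_four` (`N` prime): `tr² = 4 ⇒ d(γ) = ± 1`;
* `dChar_pow_four_of_trace_zero`, `dChar_pow_six_of_trace_sq_one` : elliptic elements have `d⁴ = 1`
  resp. `d⁶ = 1`;
* `dChar_surjective`.
-/
import Mathlib
import Fermat.Agent.ES.HEQ.DoubleCoset27

set_option autoImplicit false

noncomputable section

namespace Fermat.Agent.ES.EIS.ShimuraChar5

open CongruenceSubgroup Matrix.SpecialLinearGroup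
open Fermat.Agent.ES.HEQ.DoubleCoset27
open scoped MatrixGroups

/-- The character `γ ↦ d(γ) mod N` of `Γ₀(N)`, with values in the units of `ZMod N`. -/
def dChar (N : ℕ) : Gamma0 N →* (ZMod N)ˣ := (Gamma0Map N).toHomUnits

theorem coe_dChar (N : ℕ) (γ : Gamma0 N) :
    ((dChar N γ : (ZMod N)ˣ) : ZMod N) = (((γ : SL(2, ℤ)) 1 1 : ℤ) : ZMod N) := rfl

section Hecke

variable {l : ℕ} [hl : Fact l.Prime] {N : ℕ} (hlN : ¬ l ∣ N)

include hlN in
theorem coprime_of_not_dvd : Nat.Coprime l N :=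
  (Nat.Prime.coprime_iff_not_dvd hl.out).mpr hlN

/-- the lower right entry of `β_i`, as a unit of `ZMod N`. -/
def uUnit : Option (ZMod l) → (ZMod N)ˣ
  | some _ => ZMod.unitOfCoprime l (coprime_of_not_dvd hlN)
  | none => 1

theorem coe_uUnit (i : Option (ZMod l)) :
    ((uUnit hlN i : (ZMod N)ˣ) : ZMod N) = ((beta l i 1 1 : ℤ) : ZMod N) := by
  cases i with
  | none => simp [uUnit, beta]
  | some j => simp [uUnit, beta]

/-- `u_i · d(γ) = d(coc γ i) · u_{perm γ i}`. -/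
theorem dChar_cocG (γ : Gamma0 N) (i : Option (ZMod l)) :
    uUnit hlN i * dChar N γ = dChar N (cocG hlN γ i) * uUnit hlN (permG γ i) := by
  apply Units.ext
  rw [Units.val_mul, Units.val_mul, coe_uUnit, coe_uUnit, coe_dChar, coe_dChar, permG_apply,
    coe_cocG]
  have e11 := congrFun (congrFun (beta_mul (γ : SL(2, ℤ)) i) 1) 1
  simp only [Matrix.mul_apply, Fin.sum_univ_two, beta_one_zero, zero_mul, zero_add] at e11
  have hc : ((coc (γ : SL(2, ℤ)) i 1 0 : ℤ) : ZMod N) = 0 :=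
    Gamma0_mem.mp (coc_mem_Gamma0 hlN γ.2 i)
  have h := congrArg (Int.cast : ℤ → ZMod N) e11
  push_cast at h
  rw [hc, zero_mul, zero_add] at h
  exact h

/-- **`T_l` multiplies the Shimura character by `l + 1`** (multiplicative form). -/
theorem tdcMul_dChar : tdcMul hlN (dChar N) = (dChar N) ^ (l + 1) := by
  ext γ
  rw [tdcMul_apply, MonoidHom.pow_apply]
  have h1 : ∀ i : Option (ZMod l),
      dChar N (cocG hlN γ i) = uUnit hlN i * dChar N γ * (uUnit hlN (permG γ i))⁻¹ := by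
    intro i
    rw [dChar_cocG hlN γ i, mul_inv_cancel_right]
  simp only [h1, Finset.prod_mul_distrib, Finset.prod_const, Finset.prod_inv_distrib]
  rw [Equiv.prod_comp (permG γ) (fun i => uUnit hlN i)]
  have hcard : (Finset.univ : Finset (Option (ZMod l))).card = l + 1 := by
    have : NeZero l := ⟨hl.out.ne_zero⟩
    rw [Finset.card_univ, Fintype.card_option, ZMod.card]
  rw [hcard, mul_comm (∏ i, uUnit hlN i), mul_assoc, mul_inv_cancel, mul_one]

/-- **`T_l` multiplies every additive character through `dChar` by `l + 1`**. -/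
theorem tdcAdd_comp_dChar {A : Type*} [AddCommGroup A] (ω : Additive (ZMod N)ˣ →+ A) :
    tdcAdd hlN (ω.comp (MonoidHom.toAdditive (dChar N)))
      = (l + 1) • ω.comp (MonoidHom.toAdditive (dChar N)) := by
  rw [tdcAdd_comp]
  refine DFunLike.ext _ _ fun γ => ?_
  have h := tdcMul_eq_toMul_tdcAdd hlN (dChar N) (Additive.toMul γ)
  rw [tdcMul_dChar hlN, MonoidHom.pow_apply] at h
  have h2 : tdcAdd hlN (MonoidHom.toAdditive (dChar N)) γ
      = (l + 1) • (MonoidHom.toAdditive (dChar N)) γ := by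
    have := congrArg Additive.ofMul h
    simpa using this.symm
  rw [AddMonoidHom.comp_apply, h2, map_nsmul, AddMonoidHom.smul_apply, AddMonoidHom.comp_apply]

end Hecke

/-! ### Parabolic and elliptic elements -/

section Trace

variable {N : ℕ}

/-- `d² - t d + 1 ≡ 0 mod N`, `t` the trace. -/
theorem dChar_quadratic (γ : Gamma0 N) :
    ((dChar N γ : (ZMod N)ˣ) : ZMod N) ^ 2
      - ((((γ : SL(2, ℤ)) : Matrix (Fin 2) (Fin 2) ℤ).trace : ℤ) : ZMod N)
          * ((dChar N γ : (ZMod N)ˣ) : ZMod N) + 1 = 0 := by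
  have hc : (((γ : SL(2, ℤ)) 1 0 : ℤ) : ZMod N) = 0 := Gamma0_mem.mp γ.2
  have hdet := (γ : SL(2, ℤ)).2
  rw [Matrix.det_fin_two] at hdet
  have h := congrArg (Int.cast : ℤ → ZMod N) hdet
  push_cast at h
  rw [hc, mul_zero, sub_zero] at h
  rw [coe_dChar, Matrix.trace_fin_two]
  push_cast
  linear_combination (-1 : ZMod N) * h

/-- elliptic elements of order `4`: `tr = 0 ⇒ d⁴ = 1`. -/
theorem dChar_pow_four_of_trace_zero (γ : Gamma0 N)
    (h : ((γ : SL(2, ℤ)) : Matrix (Fin 2) (Fin 2) ℤ).trace = 0) : dChar N γ ^ 4 = 1 := by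
  apply Units.ext
  have hq := dChar_quadratic γ
  rw [h] at hq
  push_cast at hq ⊢
  linear_combination (((dChar N γ : (ZMod N)ˣ) : ZMod N) ^ 2 - 1) * hq

/-- elliptic elements of order `3`, `6`: `tr² = 1 ⇒ d⁶ = 1`. -/
theorem dChar_pow_six_of_trace_sq_one (γ : Gamma0 N)
    (h : ((γ : SL(2, ℤ)) : Matrix (Fin 2) (Fin 2) ℤ).trace ^ 2 = 1) : dChar N γ ^ 6 = 1 := by
  apply Units.ext
  have hq := dChar_quadratic γ
  have ht : ((((γ : SL(2, ℤ)) : Matrix (Fin 2) (Fin 2) ℤ).trace : ℤ) : ZMod N) ^ 2 = 1 := by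
    have := congrArg (Int.cast : ℤ → ZMod N) h
    push_cast at this
    exact this
  push_cast at hq ⊢
  set d : ZMod N := ((dChar N γ : (ZMod N)ˣ) : ZMod N) with hd
  set t : ZMod N := ((((γ : SL(2, ℤ)) : Matrix (Fin 2) (Fin 2) ℤ).trace : ℤ) : ZMod N) with ht'
  linear_combination (d + t) * (d ^ 3 - t) * hq + (d * (d ^ 3 - t) + 1) * ht

/-- parabolic elements (and `± 1`): `tr² = 4 ⇒ d = ± 1`, for prime level. -/
theorem dChar_of_trace_sq_eq_four {P : ℕ} [Fact P.Prime] (γ : Gamma0 P)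
    (h : ((γ : SL(2, ℤ)) : Matrix (Fin 2) (Fin 2) ℤ).trace ^ 2 = 4) :
    dChar P γ = 1 ∨ dChar P γ = -1 := by
  have hq := dChar_quadratic γ
  have ht : ((γ : SL(2, ℤ)) : Matrix (Fin 2) (Fin 2) ℤ).trace = 2
      ∨ ((γ : SL(2, ℤ)) : Matrix (Fin 2) (Fin 2) ℤ).trace = -2 := by
    have h' : (((γ : SL(2, ℤ)) : Matrix (Fin 2) (Fin 2) ℤ).trace - 2)
        * (((γ : SL(2, ℤ)) : Matrix (Fin 2) (Fin 2) ℤ).trace + 2) = 0 := by
      linear_combination h
    rcases mul_eq_zero.mp h' with h1 | h1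
    · left; linarith
    · right; linarith
  rcases ht with ht | ht
  · left
    rw [ht] at hq
    push_cast at hq
    have h0 : (((dChar P γ : (ZMod P)ˣ) : ZMod P) - 1) ^ 2 = 0 := by linear_combination hq
    apply Units.ext
    rw [Units.val_one]
    exact sub_eq_zero.mp ((pow_eq_zero_iff (two_ne_zero)).mp h0)
  · right
    rw [ht] at hq
    push_cast at hq
    have h0 : (((dChar P γ : (ZMod P)ˣ) : ZMod P) + 1) ^ 2 = 0 := by linear_combination hq
    apply Units.ext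
    rw [Units.val_neg, Units.val_one]
    exact eq_neg_of_add_eq_zero_left ((pow_eq_zero_iff (two_ne_zero)).mp h0)

end Trace

/-! ### Surjectivity -/

theorem dChar_surjective (N : ℕ) [NeZero N] : Function.Surjective (dChar N) := by
  intro u
  have hcop : Nat.Coprime (u : ZMod N).val N := ZMod.val_coe_unit_coprime u
  -- Bezout: `a * d + b * N = 1`
  have hg : Int.gcd ((u : ZMod N).val : ℤ) (N : ℤ) = 1 := by
    rw [Int.gcd_natCast_natCast]; exact hcop
  obtain ⟨a, b, hab⟩ : ∃ a b : ℤ, ((u : ZMod N).val : ℤ) * a + (N : ℤ) * b = 1 := by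
    refine ⟨Int.gcdA ((u : ZMod N).val : ℤ) (N : ℤ), Int.gcdB ((u : ZMod N).val : ℤ) (N : ℤ), ?_⟩
    have := Int.gcd_eq_gcd_ab ((u : ZMod N).val : ℤ) (N : ℤ)
    rw [hg] at this
    exact_mod_cast this.symm
  let M : Matrix (Fin 2) (Fin 2) ℤ := !![a, -b; (N : ℤ), ((u : ZMod N).val : ℤ)]
  have hdet : M.det = 1 := by
    rw [Matrix.det_fin_two_of]; linear_combination hab
  let g : SL(2, ℤ) := ⟨M, hdet⟩
  have hg0 : g ∈ Gamma0 N := by
    rw [Gamma0_mem]
    show (((N : ℤ) : ℤ) : ZMod N) = 0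
    simp
  refine ⟨⟨g, hg0⟩, ?_⟩
  apply Units.ext
  rw [coe_dChar]
  show ((((u : ZMod N).val : ℤ) : ℤ) : ZMod N) = (u : ZMod N)
  simp


end Fermat.Agent.ES.EIS.ShimuraChar5
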