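/-
Program M (S16), chapter B, brick (B2) continued (helper5): the Eisenstein class
`χ = ω ∘ (d mod p) : Γ₀(p) → ZMod n`, `n = eisensteinNumerator p = (p-1)/gcd(p-1,12)`.

* `exists_omega` : for a finite cyclic group `G` and `n ∣ |G|` there is a surjective
  `ω : Additive G →+ ZMod n` killing every `x` with `x ^ (|G| / n) = 1`;
* `omega p`, `omega_surjective`, `omega_eq_zero_of_pow_twelve` (`x ^ 12 = 1 ⇒ ω x = 0`);
* `eisChar p : Additive (Gamma0 p) →+ ZMod n`, `eisChar_mem_parabolicHoms`,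
  `eisChar_eq_zero_of_trace_sq_lt_four` (elliptic elements), `eisChar_surjective`,
  `nsmul_eisChar_eq_zero_iff` (exact order `n`), `tdcAdd_eisChar` (`T_l χ = (1 + l) χ`).
-/
import Mathlib
import Fermat.Prelude.Def_ModularCurve_ModularUnit
import Fermat.Prelude.Def_ModularCurve_PeriodMap
import Fermat.Agent.ES.EIS.ShimuraChar5

set_option autoImplicit false

noncomputable section

namespace Fermat.Agent.ES.EIS.EisChar5

open CongruenceSubgroup Matrix.SpecialLinearGroup ModularCurve ModularCurve.Period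
open Fermat.Agent.ES.HEQ.DoubleCoset27 Fermat.Agent.ES.EIS.ShimuraChar5
open scoped MatrixGroups

/-- For a finite cyclic group `G` and `n ∣ |G|`: a surjective hom `G → ZMod n` killing the
`(|G|/n)`-torsion. -/
theorem exists_omega (G : Type*) [CommGroup G] [Finite G] [hG : IsCyclic G] (n : ℕ)
    (hn : n ∣ Nat.card G) :
    ∃ ω : Additive G →+ ZMod n, Function.Surjective ω ∧
      ∀ x : G, x ^ (Nat.card G / n) = 1 → ω (Additive.ofMul x) = 0 := by
  have hm : 0 < Nat.card G := Nat.card_pos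
  haveI : NeZero (Nat.card G) := ⟨hm.ne'⟩
  have hn0 : 0 < n := Nat.pos_of_dvd_of_pos hn hm
  haveI : NeZero n := ⟨hn0.ne'⟩
  let e : ZMod (Nat.card G) ≃+ Additive G :=
    zmodAddCyclicAddEquiv (isAddCyclic_additive_iff.2 hG)
  refine ⟨(ZMod.castHom hn (ZMod n)).toAddMonoidHom.comp e.symm.toAddMonoidHom, ?_, ?_⟩
  · exact (ZMod.castHom_surjective hn).comp e.symm.surjective
  · intro x hx
    set k : ZMod (Nat.card G) := e.symm (Additive.ofMul x) with hk
    have h1 : (Nat.card G / n) • k = 0 := by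
      rw [hk, ← map_nsmul, ← ofMul_pow, hx, ofMul_one, map_zero]
    have h2 : Nat.card G ∣ (Nat.card G / n) * k.val := by
      rw [← ZMod.natCast_eq_zero_iff]
      push_cast
      rw [ZMod.natCast_zmod_val, ← nsmul_eq_mul]
      exact h1
    have h3 : n ∣ k.val := by
      generalize k.val = v at h2
      generalize Nat.card G = m at h2 hn hm
      obtain ⟨r, rfl⟩ := hn
      have hr0 : 0 < r := by
        rcases Nat.eq_zero_or_pos r with h | h
        · rw [h, mul_zero] at hm; omega
        · exact h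
      rw [Nat.mul_div_cancel_left r hn0, mul_comm n r] at h2
      exact (Nat.mul_dvd_mul_iff_left hr0).mp h2
    show (ZMod.castHom hn (ZMod n)) k = 0
    rw [← ZMod.natCast_zmod_val k, map_natCast]
    exact (ZMod.natCast_eq_zero_iff _ _).mpr h3

variable (p : ℕ) [hp : Fact p.Prime]

theorem card_units_zmod : Nat.card (ZMod p)ˣ = p - 1 := by
  rw [Nat.card_eq_fintype_card, ZMod.card_units]

theorem numerator_dvd_card : eisensteinNumerator p ∣ Nat.card (ZMod p)ˣ := by
  rw [card_units_zmod]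
  exact eisensteinNumerator_dvd p

theorem eisensteinNumerator_pos : 0 < eisensteinNumerator p :=
  Nat.pos_of_dvd_of_pos (numerator_dvd_card p) Nat.card_pos

instance instNeZeroNumerator : NeZero (eisensteinNumerator p) := ⟨(eisensteinNumerator_pos p).ne'⟩

theorem card_div_numerator : Nat.card (ZMod p)ˣ / eisensteinNumerator p = Nat.gcd (p - 1) 12 := by
  rw [card_units_zmod, eisensteinNumerator]
  have h1 : 0 < p - 1 := Nat.sub_pos_of_lt hp.out.one_lt
  exact Nat.div_div_self (Nat.gcd_dvd_left _ _) h1.ne'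

/-- **`ω : (ℤ/p)ˣ → ℤ/n`**, `n = (p-1)/gcd(p-1,12)`: surjective, kills the `12`-torsion. -/
def omega : Additive (ZMod p)ˣ →+ ZMod (eisensteinNumerator p) :=
  (exists_omega (ZMod p)ˣ (eisensteinNumerator p) (numerator_dvd_card p)).choose

theorem omega_surjective : Function.Surjective (omega p) :=
  (exists_omega (ZMod p)ˣ (eisensteinNumerator p) (numerator_dvd_card p)).choose_spec.1

theorem omega_eq_zero_of_pow_twelve (x : (ZMod p)ˣ) (h : x ^ 12 = 1) :
    omega p (Additive.ofMul x) = 0 := by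
  refine (exists_omega (ZMod p)ˣ (eisensteinNumerator p) (numerator_dvd_card p)).choose_spec.2 x ?_
  rw [card_div_numerator]
  have h1 : x ^ (p - 1) = 1 := by
    rw [← card_units_zmod p]
    exact pow_card_eq_one'
  exact pow_gcd_eq_one.mpr ⟨h1, h⟩

/-- **The Eisenstein class** `χ = ω ∘ (d mod p) : Γ₀(p) → ℤ/n`. -/
def eisChar : Additive (Gamma0 p) →+ ZMod (eisensteinNumerator p) :=
  (omega p).comp (MonoidHom.toAdditive (dChar p))

theorem eisChar_apply (γ : Gamma0 p) :
    eisChar p (Additive.ofMul γ) = omega p (Additive.ofMul (dChar p γ)) := rfl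

theorem eisChar_eq_zero_of_dChar_pow_twelve (γ : Gamma0 p) (h : dChar p γ ^ 12 = 1) :
    eisChar p (Additive.ofMul γ) = 0 :=
  omega_eq_zero_of_pow_twelve p _ h

/-- `χ` kills the parabolic elements (and `± 1`). -/
theorem eisChar_isParabolicHom : IsParabolicHom (Gamma0 p) (eisChar p) := by
  intro γ hγ
  apply eisChar_eq_zero_of_dChar_pow_twelve
  rcases dChar_of_trace_sq_eq_four γ hγ with h | h
  · rw [h, one_pow]
  · rw [h]; norm_num

theorem eisChar_mem_parabolicHoms :
    eisChar p ∈ parabolicHoms ℤ (Gamma0 p) (ZMod (eisensteinNumerator p)) :=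
  eisChar_isParabolicHom p

/-- `χ` kills the elliptic elements. -/
theorem eisChar_eq_zero_of_trace_sq_lt_four (γ : Gamma0 p)
    (h : ((γ : SL(2, ℤ)) : Matrix (Fin 2) (Fin 2) ℤ).trace ^ 2 < 4) :
    eisChar p (Additive.ofMul γ) = 0 := by
  apply eisChar_eq_zero_of_dChar_pow_twelve
  set t := ((γ : SL(2, ℤ)) : Matrix (Fin 2) (Fin 2) ℤ).trace with ht
  have hlt : -2 < t ∧ t < 2 := by
    constructor <;> nlinarith
  have hcases : t = 0 ∨ t ^ 2 = 1 := by
    have h1 : t = -1 ∨ t = 0 ∨ t = 1 := by omega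
    rcases h1 with h1 | h1 | h1
    · right; rw [h1]; norm_num
    · left; exact h1
    · right; rw [h1]; norm_num
  rcases hcases with h0 | h1
  · have := dChar_pow_four_of_trace_zero γ h0
    calc dChar p γ ^ 12 = (dChar p γ ^ 4) ^ 3 := by rw [← pow_mul]
      _ = 1 := by rw [this, one_pow]
  · have := dChar_pow_six_of_trace_sq_one γ h1
    calc dChar p γ ^ 12 = (dChar p γ ^ 6) ^ 2 := by rw [← pow_mul]
      _ = 1 := by rw [this, one_pow]

/-- the elliptic vanishing in the literal shape of `LiftChi21.exists_lift` (`hell`). -/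
theorem eisChar_hell (γ : Gamma0 p)
    (h : ((γ : SL(2, ℤ)) : Matrix (Fin 2) (Fin 2) ℤ).trace = 0
      ∨ ((γ : SL(2, ℤ)) : Matrix (Fin 2) (Fin 2) ℤ).trace = 1
      ∨ ((γ : SL(2, ℤ)) : Matrix (Fin 2) (Fin 2) ℤ).trace = -1) :
    eisChar p (Additive.ofMul γ) = 0 := by
  apply eisChar_eq_zero_of_trace_sq_lt_four
  rcases h with h | h | h <;> rw [h] <;> norm_num

theorem eisChar_surjective : Function.Surjective (eisChar p) := by
  haveI : NeZero p := ⟨hp.out.ne_zero⟩
  intro y
  obtain ⟨x, hx⟩ := omega_surjective p y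
  obtain ⟨γ, hγ⟩ := dChar_surjective p (Additive.toMul x)
  refine ⟨Additive.ofMul γ, ?_⟩
  rw [eisChar_apply, hγ]
  exact hx

/-- `χ` has exact additive order `n`. -/
theorem nsmul_eisChar_eq_zero_iff (k : ℤ) :
    k • eisChar p = 0 ↔ (eisensteinNumerator p : ℤ) ∣ k := by
  constructor
  · intro h
    obtain ⟨γ, hγ⟩ := eisChar_surjective p 1
    have h1 := DFunLike.congr_fun h γ
    rw [AddMonoidHom.smul_apply, hγ, AddMonoidHom.zero_apply, zsmul_one] at h1
    exact (ZMod.intCast_zmod_eq_zero_iff_dvd k _).mp h1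
  · intro h
    refine DFunLike.ext _ _ fun γ => ?_
    rw [AddMonoidHom.smul_apply, AddMonoidHom.zero_apply]
    have : (k : ZMod (eisensteinNumerator p)) = 0 := (ZMod.intCast_zmod_eq_zero_iff_dvd k _).mpr h
    rw [← zsmul_one] at this
    calc k • eisChar p γ = k • ((1 : ZMod (eisensteinNumerator p)) * eisChar p γ) := by rw [one_mul]
      _ = (k • (1 : ZMod (eisensteinNumerator p))) * eisChar p γ := by rw [smul_mul_assoc]
      _ = 0 := by rw [this, zero_mul]

/-- **`T_l χ = (1 + l) χ`** for every prime `l ≠ p`. -/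
theorem tdcAdd_eisChar {l : ℕ} [Fact l.Prime] (hlp : ¬ l ∣ p) :
    tdcAdd hlp (eisChar p) = (l + 1) • eisChar p :=
  tdcAdd_comp_dChar hlp (omega p)

end Fermat.Agent.ES.EIS.EisChar5
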